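/-
P-ES / ES-C2-NORM (row 331, helper58), part 1: pure algebra (Mathlib only).

* `normAlg_norm_eq_of_eq_pow_minpoly` : if a monic polynomial `p` of degree `[L : K]` is a power
  of the minimal polynomial of `h`, then `N_{L/K}(h) = (-1)^[L:K] p(0)`.
* `normAlg_eq_pow_minpoly` : a criterion for `p` to be a power of the minimal polynomial of `h`,
  by "evaluation at points": `K` is the field of fractions of a subring `A` with a separating
  family of ring homomorphisms `ev z : A → Ω` into an algebraically closed field, and the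
  specialisations of `p` split with roots `r z x` that are roots of the specialisation of every
  polynomial over `A` killing `h`.
-/
import Mathlib

set_option autoImplicit false

noncomputable section

open Polynomial Module IntermediateField

namespace Fermat.Agent.H58

/-- If `p` has degree `[L : K]` and is a power of the minimal polynomial of `h`, then the norm of
`h` is `(-1)^[L:K] p(0)`. -/
theorem normAlg_norm_eq_of_eq_pow_minpoly {K L : Type*} [Field K] [Field L] [Algebra K L]
    [FiniteDimensional K L] (h : L) (p : K[X]) (e : ℕ) (hp : p = minpoly K h ^ e)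
    (hdeg : p.natDegree = finrank K L) :
    Algebra.norm K h = (-1) ^ (finrank K L) * p.coeff 0 := by
  have hint : IsIntegral K h := IsIntegral.of_finite K h
  have hμ : (minpoly K h).Monic := minpoly.monic hint
  have hμdeg : 0 < (minpoly K h).natDegree := minpoly.natDegree_pos hint
  have h1 : Algebra.norm K h
      = Algebra.norm K (IntermediateField.AdjoinSimple.gen K h) ^ finrank K⟮h⟯ L :=
    Algebra.norm_eq_norm_adjoin K h
  have h2 : Algebra.norm K (IntermediateField.AdjoinSimple.gen K h)
      = (-1) ^ (minpoly K h).natDegree * (minpoly K h).coeff 0 := by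
    have h3 := Algebra.PowerBasis.norm_gen_eq_coeff_zero_minpoly
      (IntermediateField.adjoin.powerBasis hint)
    rw [IntermediateField.adjoin.powerBasis_gen, IntermediateField.adjoin.powerBasis_dim,
      IntermediateField.minpoly_gen] at h3
    exact h3
  have h4 : finrank K K⟮h⟯ = (minpoly K h).natDegree := IntermediateField.adjoin.finrank hint
  have h5 : finrank K K⟮h⟯ * finrank K⟮h⟯ L = finrank K L := Module.finrank_mul_finrank K K⟮h⟯ L
  have h6 : p.natDegree = e * (minpoly K h).natDegree := by
    rw [hp, hμ.natDegree_pow]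
  have h7 : e = finrank K⟮h⟯ L := by
    have : (minpoly K h).natDegree * e = (minpoly K h).natDegree * finrank K⟮h⟯ L := by
      rw [← h4, h5, ← hdeg, h6, h4, mul_comm]
    exact Nat.eq_of_mul_eq_mul_left hμdeg this
  have h8 : p.coeff 0 = (minpoly K h).coeff 0 ^ e := by
    rw [hp, coeff_zero_eq_eval_zero, eval_pow, ← coeff_zero_eq_eval_zero]
  rw [h1, h2, h8, ← h7, mul_pow, ← pow_mul, ← hdeg, h6, mul_comm e]

/-- Clearing denominators of finitely many polynomials simultaneously. -/
theorem normAlg_exists_common_denom {A K : Type*} [CommRing A] [IsDomain A] [Field K]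
    [Algebra A K] [IsFractionRing A K] (s : Finset K[X]) :
    ∃ b : A, b ≠ 0 ∧ ∀ P ∈ s, ∃ Q : A[X],
      Q.map (algebraMap A K) = C (algebraMap A K b) * P := by
  classical
  obtain ⟨b, hb⟩ := IsLocalization.exist_integer_multiples_of_finset (nonZeroDivisors A)
    (s.biUnion fun P => P.coeffs)
  refine ⟨b, nonZeroDivisors.ne_zero b.2, fun P hP => ?_⟩
  have hl : C (algebraMap A K b) * P ∈ Polynomial.lifts (algebraMap A K) := by
    rw [Polynomial.lifts_iff_coeff_lifts]
    intro n
    rw [coeff_C_mul]
    by_cases h0 : P.coeff n = 0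
    · rw [h0, mul_zero]
      exact ⟨0, map_zero _⟩
    · have hmem : P.coeff n ∈ s.biUnion fun P => P.coeffs :=
        Finset.mem_biUnion.mpr ⟨P, hP, coeff_mem_coeffs h0⟩
      obtain ⟨a, ha⟩ := hb _ hmem
      refine ⟨a, ?_⟩
      rw [ha, Algebra.smul_def]
  exact (Polynomial.mem_lifts _).mp hl

/-- **Criterion for being a power of the minimal polynomial**, by evaluation at points. -/
theorem normAlg_eq_pow_minpoly {A K L Ω Z ι : Type*} [CommRing A] [IsDomain A] [Field K]
    [Algebra A K] [IsFractionRing A K] [Field L] [Algebra K L] [Field Ω] [IsAlgClosed Ω]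
    [Fintype ι]
    (ev : Z → (A →+* Ω)) (hev : ∀ a : A, a ≠ 0 → ∃ z, ev z a ≠ 0)
    (r : Z → ι → Ω) (h : L) (p : K[X]) (hp : p.Monic) (hph : aeval h p = 0)
    (hroot : ∀ Q : A[X], aeval h (Q.map (algebraMap A K)) = 0 →
      ∀ z x, (Q.map (ev z)).eval (r z x) = 0)
    (hprod : ∀ (b : A) (Q : A[X]), Q.map (algebraMap A K) = C (algebraMap A K b) * p →
      ∀ z, Q.map (ev z) = C (ev z b) * ∏ x, (X - C (r z x))) :
    ∃ e : ℕ, p = minpoly K h ^ e := by
  classical
  have hint : IsIntegral K h := ⟨p, hp, hph⟩
  set μ := minpoly K h with hμdef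
  have hμirr : Irreducible μ := minpoly.irreducible hint
  have hμmonic : μ.Monic := minpoly.monic hint
  have hμh : aeval h μ = 0 := minpoly.aeval K h
  have hfin : FiniteMultiplicity μ p :=
    FiniteMultiplicity.of_not_isUnit hμirr.not_isUnit hp.ne_zero
  obtain ⟨R, hpR, hR⟩ := hfin.exists_eq_pow_mul_and_not_dvd
  set e := multiplicity μ p with hedef
  refine ⟨e, ?_⟩
  have hRmonic : R.Monic := (hμmonic.pow e).of_mul_monic_left (hpR ▸ hp)
  obtain ⟨u, v, huv⟩ : IsCoprime μ R := hμirr.coprime_iff_not_dvd.mpr hR
  suffices hR1 : R = 1 by rw [hpR, hR1, mul_one]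
  by_contra hRne
  have hRdeg : 0 < R.natDegree := by
    rcases Nat.eq_zero_or_pos R.natDegree with h0 | h0
    · exact absurd (hRmonic.natDegree_eq_zero.mp h0) hRne
    · exact h0
  -- clear denominators
  obtain ⟨b, hb0, hb⟩ := normAlg_exists_common_denom (A := A) (K := K) ({μ, R, u, v, p} : Finset K[X])
  obtain ⟨Qμ, hQμ⟩ := hb μ (by simp)
  obtain ⟨QR, hQR⟩ := hb R (by simp)
  obtain ⟨Qu, hQu⟩ := hb u (by simp)
  obtain ⟨Qv, hQv⟩ := hb v (by simp)
  obtain ⟨Qp, hQp⟩ := hb p (by simp)
  have hinj : Function.Injective (Polynomial.map (algebraMap A K)) :=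
    Polynomial.map_injective _ (IsFractionRing.injective A K)
  have hI1 : Qu * Qμ + Qv * QR = C (b * b) := by
    apply hinj
    rw [Polynomial.map_add, Polynomial.map_mul, Polynomial.map_mul, hQu, hQμ, hQv, hQR,
      Polynomial.map_C, map_mul, C_mul]
    linear_combination (C (algebraMap A K b) * C (algebraMap A K b)) * huv
  have hI2 : C (b ^ e) * Qp = Qμ ^ e * QR := by
    apply hinj
    rw [Polynomial.map_mul, Polynomial.map_mul, Polynomial.map_pow, hQp, hQμ, hQR,
      Polynomial.map_C, map_pow, C_pow, hpR]
    ring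
  obtain ⟨z, hz⟩ := hev b hb0
  -- the specialised identities
  have hJ1 : Qu.map (ev z) * Qμ.map (ev z) + Qv.map (ev z) * QR.map (ev z)
      = C (ev z b * ev z b) := by
    have := congrArg (Polynomial.map (ev z)) hI1
    rwa [Polynomial.map_add, Polynomial.map_mul, Polynomial.map_mul, Polynomial.map_C,
      map_mul] at this
  have hJ2 : C (ev z b ^ e) * (C (ev z b) * ∏ x, (X - C (r z x)))
      = Qμ.map (ev z) ^ e * QR.map (ev z) := by
    have := congrArg (Polynomial.map (ev z)) hI2
    rwa [Polynomial.map_mul, Polynomial.map_mul, Polynomial.map_pow, Polynomial.map_C,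
      map_pow, hprod b Qp hQp z] at this
  -- the specialisation of `R` has positive degree
  have hcoeff : QR.coeff R.natDegree = b := by
    apply IsFractionRing.injective A K
    have := congrArg (fun P => P.coeff R.natDegree) hQR
    simp only [coeff_map, coeff_C_mul] at this
    rw [this, hRmonic.coeff_natDegree, mul_one]
  have hdegρ : (QR.map (ev z)).degree ≠ 0 := by
    have hc : (QR.map (ev z)).coeff R.natDegree ≠ 0 := by
      rw [coeff_map, hcoeff]
      exact hz
    have hle : R.natDegree ≤ (QR.map (ev z)).natDegree := le_natDegree_of_ne_zero hc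
    have hne : QR.map (ev z) ≠ 0 := fun h0 => hc (by rw [h0, coeff_zero])
    rw [degree_eq_natDegree hne]
    intro h0
    have : (QR.map (ev z)).natDegree = 0 := by exact_mod_cast h0
    omega
  obtain ⟨y, hy⟩ := IsAlgClosed.exists_root (QR.map (ev z)) hdegρ
  -- `y` is one of the `r z x`
  have hy2 : ∃ x, y = r z x := by
    have := congrArg (Polynomial.eval y) hJ2
    rw [eval_mul, eval_mul, eval_mul, eval_C, eval_C, hy.eq_zero, mul_zero, eval_prod] at this
    rcases mul_eq_zero.mp this with h1 | h1
    · exact absurd h1 (pow_ne_zero _ hz)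
    · rcases mul_eq_zero.mp h1 with h2 | h2
      · exact absurd h2 hz
      · obtain ⟨x, -, hx⟩ := Finset.prod_eq_zero_iff.mp h2
        rw [eval_sub, eval_X, eval_C, sub_eq_zero] at hx
        exact ⟨x, hx⟩
  obtain ⟨x, rfl⟩ := hy2
  have hμ0 : (Qμ.map (ev z)).eval (r z x) = 0 := by
    apply hroot Qμ _ z x
    rw [hQμ, map_mul, hμh, mul_zero]
  have := congrArg (Polynomial.eval (r z x)) hJ1
  rw [eval_add, eval_mul, eval_mul, hμ0, hy.eq_zero, mul_zero, mul_zero, add_zero, eval_C] at this
  exact mul_self_ne_zero.mpr hz this.symm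

end Fermat.Agent.H58

end
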