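/-
P-ES / ES-C2-NORM (row 331, helper58), part 2: analysis.

For a holomorphic `Γ₀(N)`-invariant function `F` of moderate growth at all cusps and a prime
`ℓ ∤ N`, the coefficients of the polynomial `∏_x (Y - F ∘ α_x)` (`H42.PhiAn ℓ F`) are holomorphic,
`Γ₀(N)`-invariant and of moderate growth at all cusps; `Γ₀(N)` permutes the conjugates `F ∘ α_x`
transitively.
-/
import Fermat.Agent.H21.EsC.Interfaces
import Fermat.Agent.H23.EsA.Parts
import Fermat.Agent.H94.EsA.Interfaces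
import Fermat.Agent.H42.HeckeGrowth
import Fermat.Agent.H44.Gen11.Scale
import Fermat.Agent.H44.Gen11.Core
import Fermat.Agent.H85.Gen16Coset

set_option autoImplicit false

noncomputable section

open UpperHalfPlane Matrix.SpecialLinearGroup Polynomial
open scoped MatrixGroups ModularForm Manifold

namespace Fermat.Agent.H58

open Fermat.Agent.H42 Fermat.Agent.H44 Fermat.Agent.H85 Fermat.Agent.H23

section perm

variable {N : ℕ} (p : ℕ) [NeZero p] [Fact p.Prime]

omit [NeZero p] in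
/-- Permutation of the conjugates under `Γ₀(N)`, for a `Γ₀(N)`-invariant function. -/
theorem normAn_conjFun_smul (hpN : ¬ p ∣ N) (F : ℍ → ℂ)
    (hF : ∀ g ∈ CongruenceSubgroup.Gamma0 N, ∀ τ : ℍ, F (g • τ) = F τ)
    (g : SL(2, ℤ)) (hg : g ∈ CongruenceSubgroup.Gamma0 N) (x : OnePoint (ZMod p)) (τ : ℍ) :
    conjFun p F x (g • τ) = conjFun p F (hPerm p g x) τ := by
  have hcN : (N : ℤ) ∣ g 1 0 :=
    (ZMod.intCast_zmod_eq_zero_iff_dvd _ _).mp (CongruenceSubgroup.Gamma0_mem.mp hg)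
  obtain ⟨g', hg', h⟩ :=
    P2MW.S_ModularForm_heckeT_slash_eq_self_of_mem_Gamma0.ModularForm.HeckeSlashInvariance.heckeRep_mul
      (p := p) (N := N) hpN g hcN x
  have hg'N : g' ∈ CongruenceSubgroup.Gamma0 N :=
    CongruenceSubgroup.Gamma0_mem.mpr ((ZMod.intCast_zmod_eq_zero_iff_dvd _ _).mpr hg')
  unfold conjFun
  rw [ModularGroup.sl_moeb, coe_eq_mapGL, ← mul_smul, h, mul_smul, ← coe_eq_mapGL,
    ← ModularGroup.sl_moeb, hF g' hg'N]
  rfl

/-- The polynomial `∏_x (Y - F ∘ α_x)` is `Γ₀(N)`-invariant. -/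
theorem normAn_PhiAn_smul (hpN : ¬ p ∣ N) (F : ℍ → ℂ)
    (hF : ∀ g ∈ CongruenceSubgroup.Gamma0 N, ∀ τ : ℍ, F (g • τ) = F τ)
    (g : SL(2, ℤ)) (hg : g ∈ CongruenceSubgroup.Gamma0 N) (τ : ℍ) :
    PhiAn p F (g • τ) = PhiAn p F τ := by
  unfold PhiAn
  simp_rw [normAn_conjFun_smul p hpN F hF g hg]
  exact Equiv.prod_comp (hPerm p g) (fun x => X - C (conjFun p F x τ))

/-- `Γ₀(N)` acts transitively on the conjugates: every index is the image of `∞`. -/
theorem normAn_exists_perm (hpN : ¬ p ∣ N) (x : OnePoint (ZMod p)) :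
    ∃ g ∈ CongruenceSubgroup.Gamma0 N, hPerm p g OnePoint.infty = x := by
  have hp : p.Prime := Fact.out
  induction x using OnePoint.rec with
  | infty =>
    refine ⟨1, Subgroup.one_mem _, ?_⟩
    rw [hPerm_apply, OnePoint.smul_infty_eq_ite]
    simp [redM,
      P2MW.S_ModularForm_heckeT_slash_eq_self_of_mem_Gamma0.ModularForm.HeckeSlashInvariance.redMatrix_apply_one_zero]
  | coe j =>
    have hN0 : ((N : ℕ) : ZMod p) ≠ 0 := by
      intro h0
      exact hpN ((ZMod.natCast_eq_zero_iff N p).mp h0)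
    set t : ℤ := (((j - ((N : ℕ) : ZMod p)⁻¹ : ZMod p).val : ℕ) : ℤ) with ht
    have htc : ((t : ℤ) : ZMod p) = j - ((N : ℕ) : ZMod p)⁻¹ := by
      rw [ht]
      push_cast
      exact ZMod.natCast_zmod_val _
    let g : SL(2, ℤ) := ⟨!![1, t; (N : ℤ), 1 + N * t], by
      rw [Matrix.det_fin_two_of]; ring⟩
    have hg10 : g 1 0 = (N : ℤ) := rfl
    have hg11 : g 1 1 = 1 + N * t := rfl
    refine ⟨g, ?_, ?_⟩
    · rw [CongruenceSubgroup.Gamma0_mem, hg10]
      simp
    · rw [hPerm_apply, OnePoint.smul_infty_eq_ite]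
      have h10 : (redM p g) 1 0 = ((N : ℕ) : ZMod p) := by
        rw [redM,
          P2MW.S_ModularForm_heckeT_slash_eq_self_of_mem_Gamma0.ModularForm.HeckeSlashInvariance.redMatrix_apply_one_zero,
          hg10]
        simp
      have h00 : (redM p g) 0 0 = 1 + ((N : ℕ) : ZMod p) * (j - ((N : ℕ) : ZMod p)⁻¹) := by
        rw [redM,
          P2MW.S_ModularForm_heckeT_slash_eq_self_of_mem_Gamma0.ModularForm.HeckeSlashInvariance.redMatrix_apply_zero_zero,
          hg11]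
        push_cast
        rw [htc]
      rw [h10, h00, if_neg hN0]
      congr 1
      field_simp
      ring

end perm

section growth

variable {p : ℕ} [Fact p.Prime]

/-- Translates of the conjugates are holomorphic of exponential growth. -/
theorem normAn_conjFun_translate_mem_nice (F : ℍ → ℂ) (hFd : MDiff F)
    (hFg : ∀ γ : SL(2, ℤ), ExpGrowth (fun z => F (γ • z)))
    (γ : SL(2, ℤ)) (x : OnePoint (ZMod p)) :
    (fun z => conjFun p F x (γ • z)) ∈ niceSubring := by
  have hp0 : p ≠ 0 := (Fact.out : p.Prime).ne_zero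
  obtain ⟨g', h⟩ := hRep_mul p γ x
  have e : (fun z => conjFun p F x (γ • z))
      = conjFun p (fun w => F (g' • w)) (hPerm p γ x) := by
    funext z
    unfold conjFun
    rw [ModularGroup.sl_moeb, coe_eq_mapGL, ← mul_smul, h, mul_smul, ← coe_eq_mapGL,
      ← ModularGroup.sl_moeb]
  rw [e]
  refine ⟨mdiff_conjFun p _ (mdiff_comp_smul_SL hFd g') _, ?_⟩
  obtain ⟨M, C, Y, hC, hb⟩ := hFg g'
  refine ⟨M * p, C, p * Y, hC, fun z hz => ?_⟩
  have hpos : (0 : ℝ) < p := by exact_mod_cast Nat.pos_of_ne_zero hp0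
  have h1 : Y ≤ (hRep p (hPerm p γ x) • z).im := by
    refine le_trans ?_ (le_im_hRep_smul hp0 _ z)
    rw [le_div_iff₀ hpos]
    linarith
  have h2 := hb (hRep p (hPerm p γ x) • z) h1
  have h3 : (hRep p (hPerm p γ x) • z).im ≤ p * z.im := im_hRep_smul_le hp0 _ z
  unfold conjFun
  refine h2.trans (mul_le_mul_of_nonneg_left (Real.exp_le_exp.mpr ?_) hC)
  push_cast
  have hpi : 0 < Real.pi := Real.pi_pos
  have hM : (0 : ℝ) ≤ M := Nat.cast_nonneg M
  have : 2 * Real.pi * M * (hRep p (hPerm p γ x) • z).im ≤ 2 * Real.pi * M * (p * z.im) :=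
    mul_le_mul_of_nonneg_left h3 (by positivity)
  linarith

/-- The coefficients of a product of linear factors with nice roots are nice. -/
theorem normAn_coeff_prod_mem_nice {ι : Type*} [Fintype ι] (r : ι → ℍ → ℂ)
    (hr : ∀ i, r i ∈ niceSubring) (k : ℕ) :
    (fun z => (∏ i, (X - C (r i z))).coeff k) ∈ niceSubring := by
  classical
  let QA : Polynomial niceSubring := ∏ i, (X - C ⟨r i, hr i⟩)
  have key : ∀ z : ℍ, (∏ i, (X - C (r i z)))
      = QA.map ((Pi.evalRingHom (fun _ : ℍ => ℂ) z).comp niceSubring.subtype) := by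
    intro z
    rw [Polynomial.map_prod]
    refine Finset.prod_congr rfl fun x _ => ?_
    rw [Polynomial.map_sub, Polynomial.map_X, Polynomial.map_C]
    rfl
  have e : (fun z => (∏ i, (X - C (r i z))).coeff k) = ((QA.coeff k : niceSubring) : ℍ → ℂ) := by
    funext z
    rw [key z, Polynomial.coeff_map]
    rfl
  rw [e]
  exact (QA.coeff k).2

end growth

/-! ### The coefficient functions -/

section coeffFn

variable {N : ℕ} (p : ℕ) [NeZero p]

/-- The coefficient functions of `∏_x (Y - F ∘ α_x)`. -/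
def normCoeffFn (F : ℍ → ℂ) (k : ℕ) : ℍ → ℂ := fun z => (PhiAn p F z).coeff k

theorem normCoeffFn_apply (F : ℍ → ℂ) (k : ℕ) (z : ℍ) :
    normCoeffFn p F k z = (PhiAn p F z).coeff k := rfl

theorem normCoeffFn_mdiff (F : ℍ → ℂ) (hFd : MDiff F) (k : ℕ) : MDiff (normCoeffFn p F k) :=
  mdiff_PhiAn_coeff p F hFd k

theorem normAn_PhiAn_monic (F : ℍ → ℂ) (z : ℍ) : (PhiAn p F z).Monic :=
  monic_prod_X_sub_C _ _

theorem normAn_PhiAn_natDegree (F : ℍ → ℂ) (z : ℍ) : (PhiAn p F z).natDegree = p + 1 := by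
  unfold PhiAn
  rw [natDegree_finsetProd_X_sub_C_eq_card, Finset.card_univ]
  have h1 : Fintype.card (OnePoint (ZMod p)) = Fintype.card (Option (ZMod p)) := rfl
  rw [h1, Fintype.card_option, ZMod.card]

theorem normCoeffFn_top (F : ℍ → ℂ) : normCoeffFn p F (p + 1) = fun _ => 1 := by
  funext z
  rw [normCoeffFn_apply, ← normAn_PhiAn_natDegree p F z]
  exact (normAn_PhiAn_monic p F z).coeff_natDegree

theorem normCoeffFn_eq_zero (F : ℍ → ℂ) {k : ℕ} (hk : p + 1 < k) :
    normCoeffFn p F k = fun _ => 0 := by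
  funext z
  rw [normCoeffFn_apply]
  exact coeff_eq_zero_of_natDegree_lt (by rw [normAn_PhiAn_natDegree]; exact hk)

theorem normCoeffFn_zero (F : ℍ → ℂ) (z : ℍ) :
    normCoeffFn p F 0 z = (-1) ^ (p + 1) * ∏ x : OnePoint (ZMod p), conjFun p F x z := by
  rw [normCoeffFn_apply, coeff_zero_eq_eval_zero]
  unfold PhiAn
  rw [eval_prod]
  simp only [eval_sub, eval_X, eval_C, zero_sub]
  rw [Finset.prod_neg, Finset.card_univ]
  have h1 : Fintype.card (OnePoint (ZMod p)) = Fintype.card (Option (ZMod p)) := rfl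
  rw [h1, Fintype.card_option, ZMod.card]

variable [Fact p.Prime]

theorem normCoeffFn_smul (hpN : ¬ p ∣ N) (F : ℍ → ℂ)
    (hF : ∀ g ∈ CongruenceSubgroup.Gamma0 N, ∀ τ : ℍ, F (g • τ) = F τ) (k : ℕ)
    (g : SL(2, ℤ)) (hg : g ∈ CongruenceSubgroup.Gamma0 N) (z : ℍ) :
    normCoeffFn p F k (g • z) = normCoeffFn p F k z := by
  rw [normCoeffFn_apply, normCoeffFn_apply, normAn_PhiAn_smul p hpN F hF g hg]

theorem normCoeffFn_growth (F : ℍ → ℂ) (hFd : MDiff F)
    (hFg : ∀ γ : SL(2, ℤ), ExpGrowth (fun z => F (γ • z))) (k : ℕ) :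
    Fermat.Agent.H23.EsA.ModerateGrowth (normCoeffFn p F k) := by
  intro γ
  have h := normAn_coeff_prod_mem_nice (fun x z => conjFun p F x (γ • z))
    (fun x => normAn_conjFun_translate_mem_nice F hFd hFg γ x) k
  obtain ⟨-, M, C, Y, -, hb⟩ := h
  exact ⟨M, C, Y, fun z hz => hb z hz⟩

end coeffFn

end Fermat.Agent.H58

end
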