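/-
P-ES / ES-C2-NORM (row 331, helper58), part 3: assembly.

`normRep_of_parts` : `NormRepStatement N` from the ES-A statements CORE-C, REP, HOL (modular
functions lie in the function field), A-GROW and the degree statement C1-DEG.

Proof.  Let `h = β f ∈ FC (N ℓ)`; it is represented by `F ∘ α_∞`.  The polynomial
`P = ∏_x (Y - F ∘ α_x)` has coefficients in `FC N` (HOL) and `P(h) = 0`.  By the algebraic criterion
`normAlg_eq_pow_minpoly` (evaluation at the points of `ℍ`, using that `Γ₀(N)` permutes the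
conjugates transitively), `P` is a power of the minimal polynomial of `h`; since
`deg P = ℓ + 1 = [FC (N ℓ) : FC N]`, the norm of `h` is `(-1)^(ℓ+1) P(0) = ∏_x F ∘ α_x`.
-/
import Fermat.Agent.H58.EsC.NormAn
import Fermat.Agent.H58.EsC.NormAlg

set_option autoImplicit false
set_option linter.style.haveILetI false

noncomputable section

open UpperHalfPlane Matrix.SpecialLinearGroup Polynomial AlgebraicCurve
open scoped MatrixGroups ModularForm Manifold

namespace Fermat.Agent.H58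

open Fermat.Agent.H42 Fermat.Agent.H44 Fermat.Agent.H85 Fermat.Agent.H23
open Fermat.Agent.H23.EsA

theorem normRep_laurentRel_pow {h : ℍ → ℂ} {x : LaurentSeries ℂ} (H : LaurentRel h x) (n : ℕ) :
    LaurentRel (h ^ n) (x ^ n) := by
  induction n with
  | zero => simpa using laurentRel_one
  | succ n ih => rw [pow_succ, pow_succ]; exact ih.mul H

section transfer

variable {N ℓ : ℕ} [NeZero N] [NeZero ℓ]

/-- Transfer of polynomial evaluation along `LaurentRel`. -/
theorem normRep_aeval (Q : Polynomial ↥(FC N)) (q : ℕ → ℍ → ℂ)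
    (hq : ∀ k, LaurentRel (q k) ((Q.coeff k : ↥(FC N)) : LaurentSeries ℂ))
    (h : ↥(FC (N * ℓ))) (H : ℍ → ℂ) (hH : LaurentRel H (h : LaurentSeries ℂ))
    (n : ℕ) (hn : Q.natDegree < n) :
    LaurentRel (fun z => ∑ k ∈ Finset.range n, q k z * H z ^ k)
      ((@Polynomial.aeval ↥(FC N) ↥(FC (N * ℓ)) _ _
        (algebraAlong (ModularCurve.heckeAlphaBar ℂ N ℓ)) h Q : ↥(FC (N * ℓ))) :
          LaurentSeries ℂ) := by
  letI := algebraAlong (ModularCurve.heckeAlphaBar ℂ N ℓ)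
  rw [Polynomial.aeval_eq_sum_range' hn]
  have e : ((∑ i ∈ Finset.range n, Q.coeff i • h ^ i : ↥(FC (N * ℓ))) : LaurentSeries ℂ)
      = ∑ i ∈ Finset.range n, ((Q.coeff i : ↥(FC N)) : LaurentSeries ℂ)
          * (h : LaurentSeries ℂ) ^ i := by
    change (FC (N * ℓ)).val (∑ i ∈ Finset.range n, Q.coeff i • h ^ i) = _
    rw [map_sum]
    refine Finset.sum_congr rfl fun i _ => ?_
    rw [Algebra.smul_def, map_mul, map_pow]
    rfl
  have e2 : (fun z => ∑ k ∈ Finset.range n, q k z * H z ^ k)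
      = ∑ k ∈ Finset.range n, q k * H ^ k := by
    funext z
    simp [Finset.sum_apply]
  rw [e, e2]
  exact LaurentRel.sum _ fun i _ => (hq i).mul (normRep_laurentRel_pow hH i)

end transfer

/-- The data: a ring homomorphism from `RsubC N` to functions on `ℍ` representing the elements. -/
theorem normRep_exists_theta (N : ℕ) [NeZero N] (hR : RsubRepStatement N) :
    ∃ Θ : ↥(RsubC N) →+* (ℍ → ℂ), ∀ r : ↥(RsubC N), Rep N (Θ r) (r : ↥(FC N)) := by
  have h := gen11_exists_lift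
    ((algebraMap ↥(FC N) (LaurentSeries ℂ)).comp (algebraMap ↥(RsubC N) ↥(FC N))) (fun r => by
      obtain ⟨h, hh, -⟩ := hR (r : ↥(FC N)) r.2
      exact ⟨h, hh⟩)
  obtain ⟨Θ, hΘ⟩ := h
  exact ⟨Θ, fun r => hΘ r⟩

theorem normRep_isFractionRing (N : ℕ) [NeZero N] (hC : CoreCStatement N) :
    IsFractionRing ↥(RsubC N) ↥(FC N) := by
  apply IsFractionRing.of_field
  intro f
  obtain ⟨r, s, hr, hs, hs0, hfs⟩ := hC.2 f
  refine ⟨⟨r, hr⟩, ⟨s, hs⟩, ?_⟩
  change f = r / s
  rw [eq_div_iff hs0]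
  exact hfs

/-- `α_∞ • z = ℓ z`. -/
theorem normRep_conjFun_infty (ℓ : ℕ) [NeZero ℓ] (F : ℍ → ℂ) :
    conjFun ℓ F OnePoint.infty = F ∘ scaleH ℓ := by
  funext z
  rw [conjFun_infty, Function.comp_apply]
  congr 1
  apply UpperHalfPlane.ext
  rw [ModularForm.coe_heckeDiagMatrix_smul (NeZero.ne ℓ), coe_scaleH]

section main

variable (N : ℕ) [NeZero N]

/-- **ES-C2-NORM** from the ES-A statements and the degree of `α`. -/
theorem normRep_of_parts (hCore : CoreCStatement N) (hRep : RsubRepStatement N)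
    (hHol : HolModularStatement N)
    (hGrow : Fermat.Agent.H94.EsA.InvariantGrowthStatement N)
    (hDeg : ∀ (ℓ : ℕ) [NeZero ℓ], ℓ.Prime → ¬ ℓ ∣ N →
      finrankAlong ℂ (ModularCurve.heckeAlphaBar ℂ N ℓ) = ℓ + 1) :
    Fermat.Agent.H21.EsC.NormRepStatement N := by
  intro ℓ _ hℓ hℓN f F hFd hFf
  haveI : Fact ℓ.Prime := ⟨hℓ⟩
  -- invariance and growth of `F`
  obtain ⟨hFinv', hFg'⟩ := hGrow f F hFf
  have hFinv : ∀ g ∈ CongruenceSubgroup.Gamma0 N, ∀ τ : ℍ, F (g • τ) = F τ :=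
    fun g hg τ => hFinv' ⟨g, hg⟩ τ
  have hFg : ∀ γ : SL(2, ℤ), ExpGrowth (fun z => F (γ • z)) := fun γ => hFg' γ
  -- the coefficients
  have hex : ∀ k, ∃ c : ↥(FC N), Rep N (normCoeffFn ℓ F k) c := fun k =>
    hHol _ (normCoeffFn_mdiff ℓ F hFd k)
      (fun g hg z => normCoeffFn_smul ℓ hℓN F hFinv k g hg z) (normCoeffFn_growth ℓ F hFd hFg k)
  choose c hc using hex
  have hctop : c (ℓ + 1) = 1 := by
    have h1 := hc (ℓ + 1)
    rw [normCoeffFn_top] at h1
    exact Subtype.ext (LaurentRel.unique_right h1 laurentRel_one)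
  have hczero : ∀ k, ℓ + 1 < k → c k = 0 := by
    intro k hk
    have h1 := hc k
    rw [normCoeffFn_eq_zero ℓ F hk] at h1
    exact Subtype.ext (LaurentRel.unique_right h1 laurentRel_zero)
  -- the polynomial
  set P : Polynomial ↥(FC N) := ∑ k ∈ Finset.range (ℓ + 2), C (c k) * X ^ k with hPdef
  have hPcoeff : ∀ k, P.coeff k = c k := by
    intro k
    rw [hPdef, finsetSum_coeff]
    simp only [coeff_C_mul_X_pow]
    by_cases hk : k < ℓ + 2
    · rw [Finset.sum_eq_single k]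
      · simp
      · intro b _ hbk
        rw [if_neg (Ne.symm hbk)]
      · intro hk'
        exact absurd (Finset.mem_range.mpr hk) hk'
    · rw [hczero k (by omega)]
      apply Finset.sum_eq_zero
      intro b hb
      rw [if_neg]
      intro h
      rw [h] at hk
      exact hk (Finset.mem_range.mp hb)
  have hPdeg_le : P.natDegree ≤ ℓ + 1 :=
    natDegree_le_iff_coeff_eq_zero.mpr (fun k hk => by rw [hPcoeff, hczero k hk])
  have hPmonic : P.Monic :=
    monic_of_natDegree_le_of_coeff_eq_one (ℓ + 1) hPdeg_le (by rw [hPcoeff, hctop])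
  have hPdeg : P.natDegree = ℓ + 1 :=
    le_antisymm hPdeg_le (le_natDegree_of_ne_zero (by rw [hPcoeff, hctop]; exact one_ne_zero))
  -- the algebraic setting
  letI alg : Algebra ↥(FC N) ↥(FC (N * ℓ)) := algebraAlong (ModularCurve.heckeAlphaBar ℂ N ℓ)
  letI mod : Module ↥(FC N) ↥(FC (N * ℓ)) := alg.toModule
  have hfinrank : Module.finrank ↥(FC N) ↥(FC (N * ℓ)) = ℓ + 1 := hDeg ℓ hℓ hℓN
  haveI : FiniteDimensional ↥(FC N) ↥(FC (N * ℓ)) :=
    Module.finite_of_finrank_pos (by rw [hfinrank]; omega)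
  haveI := normRep_isFractionRing N hCore
  obtain ⟨Θ, hΘ⟩ := normRep_exists_theta N hRep
  have hΘinv : ∀ (r : ↥(RsubC N)), ∀ g ∈ CongruenceSubgroup.Gamma0 N, ∀ z : ℍ,
      Θ r (g • z) = Θ r z := by
    intro r g hg z
    obtain ⟨h0, hh0, -, hinv, -⟩ := hRep (r : ↥(FC N)) r.2
    have e : Θ r = h0 := LaurentRel.unique_left (hΘ r) hh0
    rw [e]
    exact hinv g hg z
  set h : ↥(FC (N * ℓ)) := ModularCurve.heckeBetaBar ℂ N ℓ f with hh
  have hH : LaurentRel (conjFun ℓ F OnePoint.infty) (h : LaurentSeries ℂ) := by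
    rw [normRep_conjFun_infty]
    exact LaurentRel.scale hFf ℓ
  -- `P(h) = 0`
  have hPh : aeval h P = 0 := by
    have h1 := normRep_aeval P (normCoeffFn ℓ F) (fun k => by rw [hPcoeff]; exact hc k) h _ hH
      (ℓ + 2) (by omega)
    have h2 : (fun z => ∑ k ∈ Finset.range (ℓ + 2),
        normCoeffFn ℓ F k z * conjFun ℓ F OnePoint.infty z ^ k) = 0 := by
      funext z
      have h3 : (PhiAn ℓ F z).eval (conjFun ℓ F OnePoint.infty z) = 0 := by
        unfold PhiAn
        rw [eval_prod]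
        exact Finset.prod_eq_zero (Finset.mem_univ OnePoint.infty) (by simp)
      rw [eval_eq_sum_range' (by rw [normAn_PhiAn_natDegree]; omega :
        (PhiAn ℓ F z).natDegree < ℓ + 2)] at h3
      exact h3
    rw [h2] at h1
    exact Subtype.ext (h1.unique_right laurentRel_zero)
  -- separation
  have hev : ∀ a : ↥(RsubC N), a ≠ 0 →
      ∃ z, ((Pi.evalRingHom (fun _ : ℍ => ℂ) z).comp Θ) a ≠ 0 := by
    intro a ha
    by_contra hcon
    push Not at hcon
    have hz : Θ a = 0 := funext fun z => hcon z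
    have h1 : Rep N (0 : ℍ → ℂ) (a : ↥(FC N)) := hz ▸ hΘ a
    have h2 : ((a : ↥(FC N)) : LaurentSeries ℂ) = 0 := LaurentRel.unique_right h1 laurentRel_zero
    exact ha (Subtype.ext (Subtype.ext h2))
  -- roots
  have hroot : ∀ Q : Polynomial ↥(RsubC N),
      aeval h (Q.map (algebraMap ↥(RsubC N) ↥(FC N))) = 0 →
      ∀ (z : ℍ) (x : OnePoint (ZMod ℓ)),
        (Q.map ((Pi.evalRingHom (fun _ : ℍ => ℂ) z).comp Θ)).eval (conjFun ℓ F x z) = 0 := by
    intro Q hQ z x
    have h1 := normRep_aeval (Q.map (algebraMap ↥(RsubC N) ↥(FC N))) (fun k => Θ (Q.coeff k))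
      (fun k => by rw [coeff_map]; exact hΘ (Q.coeff k)) h _ hH (Q.natDegree + 1)
      (Nat.lt_succ_of_le natDegree_map_le)
    rw [hQ] at h1
    have h2 := h1.unique_left laurentRel_zero
    obtain ⟨g, hg, hgx⟩ := normAn_exists_perm (N := N) ℓ hℓN x
    have h3 := congrFun h2 (g • z)
    simp only [Pi.zero_apply] at h3
    rw [eval_map, eval₂_eq_sum_range' _ (Nat.lt_succ_self _)]
    rw [← h3]
    refine Finset.sum_congr rfl fun k _ => ?_
    rw [normAn_conjFun_smul ℓ hℓN F hFinv g hg, hgx, hΘinv (Q.coeff k) g hg z]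
    rfl
  -- product
  have hprod : ∀ (b : ↥(RsubC N)) (Q : Polynomial ↥(RsubC N)),
      Q.map (algebraMap ↥(RsubC N) ↥(FC N)) = C (algebraMap ↥(RsubC N) ↥(FC N) b) * P →
      ∀ z : ℍ, Q.map ((Pi.evalRingHom (fun _ : ℍ => ℂ) z).comp Θ)
        = C (((Pi.evalRingHom (fun _ : ℍ => ℂ) z).comp Θ) b)
          * ∏ x : OnePoint (ZMod ℓ), (X - C (conjFun ℓ F x z)) := by
    intro b Q hQ z
    ext k
    rw [coeff_map, coeff_C_mul]
    have h1 : Θ (Q.coeff k) = Θ b * normCoeffFn ℓ F k := by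
      refine LaurentRel.unique_left (hΘ (Q.coeff k)) ?_
      have h2 := congrArg (fun R => R.coeff k) hQ
      simp only [coeff_map, coeff_C_mul, hPcoeff] at h2
      have h3 : (((Q.coeff k : ↥(RsubC N)) : ↥(FC N)) : LaurentSeries ℂ)
          = (((b : ↥(RsubC N)) : ↥(FC N)) : LaurentSeries ℂ) * ((c k : ↥(FC N)) : LaurentSeries ℂ) := by
        have h4 := congrArg (fun y : ↥(FC N) => (y : LaurentSeries ℂ)) h2
        exact h4
      rw [h3]
      exact (hΘ b).mul (hc k)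
    have h5 := congrFun h1 z
    exact h5
  obtain ⟨e, he⟩ := normAlg_eq_pow_minpoly (A := ↥(RsubC N)) (K := ↥(FC N))
    (L := ↥(FC (N * ℓ))) (Ω := ℂ) (Z := ℍ) (ι := OnePoint (ZMod ℓ))
    (fun z => (Pi.evalRingHom (fun _ : ℍ => ℂ) z).comp Θ) hev (fun z x => conjFun ℓ F x z)
    h P hPmonic hPh hroot hprod
  have hnorm := normAlg_norm_eq_of_eq_pow_minpoly h P e he (by rw [hPdeg, hfinrank])
  -- conclusion
  change Rep N (Fermat.Agent.H21.EsC.heckeProd ℓ F) (Algebra.norm ↥(FC N) h)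
  rw [hnorm, hfinrank, hPcoeff]
  have e1 : Fermat.Agent.H21.EsC.heckeProd ℓ F
      = (fun _ => ((-1 : ℂ)) ^ (ℓ + 1)) * normCoeffFn ℓ F 0 := by
    funext z
    rw [Pi.mul_apply, normCoeffFn_zero, ← mul_assoc, ← pow_add]
    have : ((-1 : ℂ)) ^ (ℓ + 1 + (ℓ + 1)) = 1 := by
      rw [← two_mul, pow_mul]
      simp
    rw [this, one_mul]
    rfl
  have e2 : ((((-1) ^ (ℓ + 1) * c 0 : ↥(FC N)) : ↥(FC N)) : LaurentSeries ℂ)
      = HahnSeries.C ((-1 : ℂ) ^ (ℓ + 1)) * ((c 0 : ↥(FC N)) : LaurentSeries ℂ) := by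
    rw [map_pow, map_neg, map_one]
    rfl
  unfold Fermat.Agent.H23.EsA.Rep
  rw [e1, e2]
  exact (laurentRel_const _).mul (hc 0)

end main

end Fermat.Agent.H58

end
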