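/-
P-ES / ES-C2-NORM (row 331, helper58), final: `NormRepStatement N`, UNCONDITIONAL.

The hypotheses of `normRep_of_parts` are discharged by the landed ES-A theorems
`H13.esaCoreC`, `H13.esaRsubRep`, `H32.holModular`, `H77.esg_invariantGrowthStatement`,
`H69.DegC.degreeC` and the degree statement `H65.finrankAlong_heckeAlphaBar_of_degreeC`.
-/
import Fermat.Agent.H58.EsC.NormRep
import Fermat.Agent.H13.EsACoreC
import Fermat.Agent.H32.EsAMF
import Fermat.Agent.H77.EsAGrow
import Fermat.Agent.H69.DegreeC
import Fermat.Agent.H65.EsC.DegreeAlpha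

set_option autoImplicit false

noncomputable section

namespace Fermat.Agent.H58

/-- **ES-C2-NORM** (row 331): if the holomorphic function `F` represents `f ∈ FC N`, then the
product of its Hecke translates represents the norm of `β f` along `α`. -/
theorem normRepStatement (N : ℕ) [NeZero N] : Fermat.Agent.H21.EsC.NormRepStatement N :=
  normRep_of_parts N (Fermat.Agent.H13.esaCoreC N) (Fermat.Agent.H13.esaRsubRep N)
    (Fermat.Agent.H32.holModular N (Fermat.Agent.H13.esaCoreC N) (Fermat.Agent.H13.esaRsubRep N)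
      (Fermat.Agent.H69.DegC.degreeC N))
    (Fermat.Agent.H77.esg_invariantGrowthStatement N (Fermat.Agent.H13.esaCoreC N)
      (Fermat.Agent.H13.esaRsubRep N))
    (fun ℓ _ hℓ hℓN => Fermat.Agent.H65.finrankAlong_heckeAlphaBar_of_degreeC N ℓ hℓ hℓN
      (Fermat.Agent.H69.DegC.degreeC N) (Fermat.Agent.H69.DegC.degreeC (N * ℓ)))

end Fermat.Agent.H58

end
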